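/-
P-CFT GLOBAL / G1-WA (row 490, helper65): weak approximation in `Kˣ` at finitely many finite
places, and its corollary `[Kˣ : ⨅_{v ∈ T} H_v] = ∏_{v ∈ T} [Kˣ : H_v]` for `v`-adically open
subgroups `H_v`.
-/
import Fermat.Agent.H43.Cft.G1Leaves

set_option autoImplicit false

noncomputable section

open NumberField IsDedekindDomain

namespace Fermat.Agent.H65

universe u

/-- The principal units are decreasing in the level. -/
theorem wa_principalUnits_antitone (K : Type u) [Field K] [NumberField K]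
    (v : HeightOneSpectrum (𝓞 K)) {m m' : ℕ} (h : m ≤ m') :
    Fermat.Agent.H43.Cft.principalUnits K v m' ≤ Fermat.Agent.H43.Cft.principalUnits K v m := by
  intro u hu
  rw [Fermat.Agent.H43.Cft.mem_principalUnits] at hu ⊢
  refine hu.trans ?_
  rw [WithZero.exp_le_exp]
  have : (m : ℤ) ≤ m' := by exact_mod_cast h
  omega

/-- Additive weak approximation in `𝓞 K` relative to given nonzero targets: there is `a` with
`v(a - a_v) ≤ exp(-(m+1)) v(a_v)` for all `v ∈ T`. -/
theorem wa_integral (K : Type u) [Field K] [NumberField K]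
    (T : Finset (HeightOneSpectrum (𝓞 K))) (m : ℕ) (a : HeightOneSpectrum (𝓞 K) → 𝓞 K)
    (ha : ∀ v ∈ T, a v ≠ 0) :
    ∃ c : 𝓞 K, ∀ v ∈ T, v.intValuation (c - a v)
      ≤ WithZero.exp (-((m : ℤ) + 1)) * v.intValuation (a v) := by
  classical
  -- the exponents
  let n : HeightOneSpectrum (𝓞 K) → ℕ := fun v =>
    (Associates.mk v.asIdeal).count (Associates.mk (Ideal.span {a v})).factors
  have hn : ∀ v ∈ T, v.intValuation (a v) = WithZero.exp (-(n v : ℤ)) := fun v hv =>
    v.intValuation_if_neg (ha v hv)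
  obtain ⟨c, hc⟩ := IsDedekindDomain.exists_forall_sub_mem_ideal (s := T)
    (fun v => v.asIdeal) (fun v => m + 1 + n v) (fun v _ => v.prime)
    (fun v _ w _ hvw h => hvw (HeightOneSpectrum.ext h)) (fun v => a v.1)
  refine ⟨c, fun v hv => ?_⟩
  have h1 := hc v hv
  rw [← HeightOneSpectrum.intValuation_le_pow_iff_mem] at h1
  refine h1.trans (le_of_eq ?_)
  rw [hn v hv, ← WithZero.exp_add]
  congr 1
  push_cast
  ring

/-- **G1-WA: weak approximation** at finitely many finite places, multiplicative form. -/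
theorem weakApprox : Fermat.Agent.H43.Cft.WeakApproxStatement.{u} := by
  intro K _ _ T m x
  classical
  rcases T.eq_empty_or_nonempty with hT | hT
  · refine ⟨1, fun v hv => ?_⟩
    rw [hT] at hv
    exact absurd hv (Finset.notMem_empty v)
  -- common denominator
  obtain ⟨b, hb⟩ := IsLocalization.exist_integer_multiples (nonZeroDivisors (𝓞 K)) T
    (fun v => ((x v : Kˣ) : K))
  have hb0 : ((b : 𝓞 K) : K) ≠ 0 := by
    have := nonZeroDivisors.coe_ne_zero b
    exact_mod_cast this
  choose! a ha using hb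
  have hab : ∀ v ∈ T, ((a v : 𝓞 K) : K) = ((b : 𝓞 K) : K) * ((x v : Kˣ) : K) := by
    intro v hv
    have := ha v hv
    rw [Algebra.smul_def] at this
    exact this
  have ha0 : ∀ v ∈ T, a v ≠ 0 := by
    intro v hv h0
    have := hab v hv
    rw [h0] at this
    have hx : ((x v : Kˣ) : K) ≠ 0 := Units.ne_zero _
    have h2 : ((0 : 𝓞 K) : K) = 0 := by simp
    rw [h2] at this
    exact (mul_ne_zero hb0 hx) this.symm
  obtain ⟨c, hc⟩ := wa_integral K T m a ha0
  -- `c ≠ 0`
  have hlt : WithZero.exp (-((m : ℤ) + 1)) < (1 : WithZero (Multiplicative ℤ)) := by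
    rw [← WithZero.exp_zero, WithZero.exp_lt_exp]; omega
  have hc0 : c ≠ 0 := by
    obtain ⟨v, hv⟩ := hT
    intro h0
    have h1 := hc v hv
    rw [h0, zero_sub, Valuation.map_neg] at h1
    have hpos : v.intValuation (a v) ≠ 0 := v.intValuation_ne_zero _ (ha0 v hv)
    have h2 : WithZero.exp (-((m : ℤ) + 1)) * v.intValuation (a v) < 1 * v.intValuation (a v) :=
      mul_lt_mul_of_pos_right hlt (zero_lt_iff.mpr hpos)
    rw [one_mul] at h2
    exact absurd h1 (not_le.mpr h2)
  have hcK : ((c : 𝓞 K) : K) ≠ 0 := by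
    intro h
    apply hc0
    exact_mod_cast h
  refine ⟨Units.mk0 (((c : 𝓞 K) : K) / ((b : 𝓞 K) : K)) (div_ne_zero hcK hb0), fun v hv => ?_⟩
  rw [Fermat.Agent.H43.Cft.mem_principalUnits]
  have hx : ((x v : Kˣ) : K) ≠ 0 := Units.ne_zero _
  have haK : ((a v : 𝓞 K) : K) ≠ 0 := by
    rw [hab v hv]
    exact mul_ne_zero hb0 hx
  have e : (((Units.mk0 (((c : 𝓞 K) : K) / ((b : 𝓞 K) : K)) (div_ne_zero hcK hb0) / x v : Kˣ) : K)
      - 1) = (((c - a v : 𝓞 K) : 𝓞 K) : K) / ((a v : 𝓞 K) : K) := by
    rw [Units.val_div_eq_div_val, Units.val_mk0]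
    push_cast
    rw [div_div, ← hab v hv]
    field_simp
  rw [e, map_div₀, HeightOneSpectrum.valuation_of_algebraMap,
    HeightOneSpectrum.valuation_of_algebraMap]
  have hpos : v.intValuation (a v) ≠ 0 := v.intValuation_ne_zero _ (ha0 v hv)
  rw [div_le_iff₀ (zero_lt_iff.mpr hpos)]
  exact hc v hv

/-- **Corollary of weak approximation**: for subgroups `H v` of `Kˣ` which are `v`-adically open
(`v ∈ T`), the index of the intersection is the product of the indices. -/
theorem wa_index_iInf (K : Type u) [Field K] [NumberField K]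
    (T : Finset (HeightOneSpectrum (𝓞 K))) (H : HeightOneSpectrum (𝓞 K) → Subgroup Kˣ)
    (hH : ∀ v ∈ T, ∃ m : ℕ, Fermat.Agent.H43.Cft.principalUnits K v m ≤ H v) :
    (⨅ v ∈ T, H v).index = ∏ v ∈ T, (H v).index := by
  classical
  have hInf : (⨅ v ∈ T, H v) = ⨅ v : T, H v.1 := by
    rw [iInf_subtype]
  let emb := Subgroup.quotientiInfEmbedding (fun v : T => H v.1)
  have hsurj : Function.Surjective emb := by
    intro q
    choose mv hmv using hH
    let mfun : HeightOneSpectrum (𝓞 K) → ℕ := fun v => if hv : v ∈ T then mv v hv else 0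
    let M : ℕ := T.sup mfun
    let x : HeightOneSpectrum (𝓞 K) → Kˣ := fun v =>
      if hv : v ∈ T then Quotient.out (q ⟨v, hv⟩) else 1
    obtain ⟨y, hy⟩ := weakApprox K T M x
    refine ⟨QuotientGroup.mk y, ?_⟩
    funext v
    have h1 := hy v.1 v.2
    have hle : mfun v.1 ≤ M := Finset.le_sup (f := mfun) v.2
    have h2 : y / x v.1 ∈ H v.1 := by
      apply hmv v.1 v.2
      have : mfun v.1 = mv v.1 v.2 := by
        simp only [mfun, dif_pos v.2]
      rw [← this]
      exact wa_principalUnits_antitone K v.1 hle h1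
    have hxv : x v.1 = Quotient.out (q v) := by
      simp only [x, dif_pos v.2]
    show Subgroup.quotientiInfEmbedding (fun v : T => H v.1) (QuotientGroup.mk y) v = q v
    rw [Subgroup.quotientiInfEmbedding_apply_mk]
    have h3 : (QuotientGroup.mk (x v.1) : Kˣ ⧸ H v.1) = q v := by
      rw [hxv]
      exact Quotient.out_eq (q v)
    rw [← h3]
    rw [QuotientGroup.eq]
    have h4 : y⁻¹ * x v.1 = (y / x v.1)⁻¹ := by
      rw [div_eq_mul_inv, mul_inv_rev, inv_inv, mul_comm]
    rw [h4]
    exact (H v.1).inv_mem h2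
  have hbij : Function.Bijective emb := ⟨emb.injective, hsurj⟩
  have h1 : (⨅ v : T, H v.1).index = Nat.card ((v : T) → Kˣ ⧸ H v.1) := by
    rw [Subgroup.index]
    exact Nat.card_congr (Equiv.ofBijective emb hbij)
  rw [hInf, h1, Nat.card_pi]
  rw [← Finset.prod_coe_sort T (fun v => (H v).index)]
  rfl

end Fermat.Agent.H65

end
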