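/-
P-CFT row 595 (2I-SPLITS), helper65: if `x ∈ Kˣ` is a `p`-th power in the completion at `v`
(`x ∈ locPow K p v`) and `L = K(x^{1/p})` has degree `p` over `K ∋ ζ_p`, then `v` splits in `L`.

Proof (no completions).  Assume there is only one prime `w` of `L` above `v`; then every
`σ ∈ Gal(L/K)` preserves the `w`-adic valuation.  Pick `σ` with `σ θ = η θ`, `η ≠ 1` a `p`-th root
of unity of `K`.  For every `m` write `x = z ^ p * u` with `v (u - 1) ≤ exp (-(m+1))` and put
`θ' = θ / z`; then `θ' ^ p - 1 = u - 1 = ∏_ω (θ' - ω)` and all the factors are conjugate up to a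
root of unity to `θ' - 1`, so they have the same valuation, and
`w (η - 1) ^ p ≤ w (θ' - 1) ^ p = w (u - 1) ≤ exp (-(m+1))` for all `m`: contradiction.
-/
import Mathlib
import Fermat.Agent.H25.CFT.Interfaces
import Fermat.Agent.H43.Cft.GaloisSUnit

set_option autoImplicit false
set_option linter.style.haveILetI false

open NumberField IsDedekindDomain

namespace Fermat.Agent.H65

open Fermat.Agent.H43.Cft Fermat.Agent.H25.CFT

section

variable {K : Type*} [Field K] [NumberField K] {L : Type*} [Field L] [NumberField L]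
  [Algebra K L]

/-- Roots of unity have valuation `1`. -/
lemma ksp_valuation_eq_one_of_pow_eq_one (w : HeightOneSpectrum (𝓞 L)) {n : ℕ} (hn : n ≠ 0)
    {ω : L} (hω : ω ^ n = 1) : w.valuation L ω = 1 := by
  have h : (w.valuation L ω) ^ n = 1 := by rw [← map_pow, hω, map_one]
  exact (pow_eq_one_iff_of_nonneg zero_le hn).mp h

/-- If `w` is the only prime above `v`, the Galois group preserves the `w`-adic valuation. -/
lemma ksp_valuation_apply (v : HeightOneSpectrum (𝓞 K)) (hns : Nonsplit K L v)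
    (w : HeightOneSpectrum (𝓞 L)) (hw : w.under (𝓞 K) = v) (σ : L ≃ₐ[K] L) (y : L) :
    w.valuation L (σ y) = w.valuation L y := by
  have h1 : galPrime σ w = w := hns _ _ ((under_galPrime σ w).trans hw) hw
  rw [← valuation_galPrime, h1]

/-- The valuation of an element of `K` of `v`-valuation `≤ 1` does not increase in `L`. -/
lemma ksp_valuation_algebraMap_le (w : HeightOneSpectrum (𝓞 L)) (a : K)
    (ha : (w.under (𝓞 K)).valuation K a ≤ 1) :
    w.valuation L (algebraMap K L a) ≤ (w.under (𝓞 K)).valuation K a := by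
  rw [valuation_algebraMap_eq_pow]
  have hne := ramificationIdx'_ne_zero (K := K) w
  obtain ⟨n, hn⟩ := Nat.exists_eq_succ_of_ne_zero hne
  rw [hn, pow_succ]
  calc (w.under (𝓞 K)).valuation K a ^ n * (w.under (𝓞 K)).valuation K a
      ≤ 1 * (w.under (𝓞 K)).valuation K a :=
        mul_le_mul_left (pow_le_one₀ zero_le ha) _
    _ = _ := one_mul _

/-- The key estimate: under `Nonsplit`, if `σ θ = η θ` with `η` a primitive `p`-th root of unity
and `θ ^ p = z ^ p * u`, then `w (η - 1) ^ p ≤ v (u - 1)`. -/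
lemma ksp_key (p : ℕ) (hp : p.Prime) (v : HeightOneSpectrum (𝓞 K)) (hns : Nonsplit K L v)
    (w : HeightOneSpectrum (𝓞 L)) (hw : w.under (𝓞 K) = v) (σ : L ≃ₐ[K] L) (η : K)
    (hη : IsPrimitiveRoot η p) (θ : L) (hσ : σ θ = algebraMap K L η * θ)
    (z u : K) (hz : z ≠ 0) (hzu : θ ^ p = algebraMap K L (z ^ p * u))
    (hu : v.valuation K (u - 1) ≤ 1) :
    w.valuation L (algebraMap K L η - 1) ^ p ≤ v.valuation K (u - 1) := by
  have hp0 : p ≠ 0 := hp.ne_zero
  haveI : NeZero p := ⟨hp0⟩
  have hηL : IsPrimitiveRoot (algebraMap K L η) p :=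
    hη.map_of_injective (algebraMap K L).injective
  have hzL : algebraMap K L z ≠ 0 := by
    rwa [Ne, map_eq_zero]
  -- `θ' = θ / z`
  set θ' : L := θ / algebraMap K L z with hθ'
  have hθ'p : θ' ^ p = algebraMap K L u := by
    rw [hθ', div_pow, hzu, map_mul, map_pow]
    field_simp
  have hσθ' : σ θ' = algebraMap K L η * θ' := by
    rw [hθ', map_div₀, hσ, AlgEquiv.commutes, mul_div_assoc]
  have hσj : ∀ j : ℕ, (σ ^ j) θ' = algebraMap K L η ^ j * θ' := by
    intro j
    induction j with
    | zero => simp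
    | succ j ih =>
      rw [pow_succ, AlgEquiv.mul_apply, hσθ', map_mul, ih, ← map_pow, AlgEquiv.commutes,
        map_pow, pow_succ]
      ring
  -- all the factors have the same valuation
  have hfac : ∀ ω : L, ω ^ p = 1 →
      w.valuation L (θ' - ω) = w.valuation L (θ' - 1) := by
    intro ω hω
    have hω0 : ω ≠ 0 := by
      rintro rfl
      rw [zero_pow hp0] at hω
      exact zero_ne_one hω
    have hωinv : (ω⁻¹) ^ p = 1 := by rw [inv_pow, hω, inv_one]
    obtain ⟨j, -, hj⟩ := hηL.eq_pow_of_pow_eq_one hωinv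
    have h1 : (σ ^ j) (θ' - 1) = ω⁻¹ * (θ' - ω) := by
      rw [map_sub, map_one, hσj, hj]
      field_simp
    have h2 := ksp_valuation_apply v hns w hw (σ ^ j) (θ' - 1)
    rw [h1, map_mul, ksp_valuation_eq_one_of_pow_eq_one w hp0 hωinv, one_mul] at h2
    exact h2
  -- the product formula
  have hprod : θ' ^ p - 1 = ∏ ω ∈ Polynomial.nthRootsFinset p (1 : L), (θ' - ω) := by
    have h := congrArg (Polynomial.eval θ') (Polynomial.X_pow_sub_one_eq_prod hp.pos hηL)
    simpa [Polynomial.eval_prod] using h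
  have hval : w.valuation L (θ' ^ p - 1) = w.valuation L (θ' - 1) ^ p := by
    rw [hprod, map_prod]
    rw [Finset.prod_congr rfl fun ω hω =>
      hfac ω ((Polynomial.mem_nthRootsFinset hp.pos (1 : L)).mp hω)]
    rw [Finset.prod_const, hηL.card_nthRootsFinset]
  -- `η - 1 = (θ' - 1) - (θ' - η)`
  have hle : w.valuation L (algebraMap K L η - 1) ≤ w.valuation L (θ' - 1) := by
    have e : algebraMap K L η - 1 = (θ' - 1) - (θ' - algebraMap K L η) := by ring
    rw [e]
    refine le_trans (Valuation.map_sub _ _ _) (max_le le_rfl ?_)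
    rw [hfac _ hηL.pow_eq_one]
  calc w.valuation L (algebraMap K L η - 1) ^ p
      ≤ w.valuation L (θ' - 1) ^ p := pow_le_pow_left₀ zero_le hle p
    _ = w.valuation L (θ' ^ p - 1) := hval.symm
    _ = w.valuation L (algebraMap K L (u - 1)) := by
        rw [hθ'p, (algebraMap K L).map_sub, (algebraMap K L).map_one]
    _ ≤ (w.under (𝓞 K)).valuation K (u - 1) :=
        ksp_valuation_algebraMap_le w (u - 1) (by rw [hw]; exact hu)
    _ = v.valuation K (u - 1) := by rw [hw]

end

/-- **2I-SPLITS.** -/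
theorem kummerSplits.{u, v} : KummerSplitsStatement.{u, v} := by
  intro K _ _ L _ _ _ _ p hp hdeg ζ hζ x θ hθ hx v hxv hns
  have hp0 : p ≠ 0 := hp.ne_zero
  haveI : NeZero p := ⟨hp0⟩
  haveI : FiniteDimensional K L := Module.finite_of_finrank_pos (by rw [hdeg]; exact hp.pos)
  obtain ⟨w, hw⟩ := exists_prime_above K L v
  have hxL : algebraMap K L (x : K) ≠ 0 := by
    rw [Ne, map_eq_zero]
    exact x.ne_zero
  have hθ0 : θ ≠ 0 := by
    rintro rfl
    rw [zero_pow hp0] at hθ
    exact hxL hθ.symm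
  -- `θ ∉ K`
  have hθK : θ ∉ Set.range (algebraMap K L) := by
    rintro ⟨t, ht⟩
    apply hx
    have ht0 : t ≠ 0 := by
      rintro rfl
      rw [map_zero] at ht
      exact hθ0 ht.symm
    refine ⟨Units.mk0 t ht0, Units.ext ?_⟩
    apply (algebraMap K L).injective
    simp only [powMonoidHom_apply, Units.val_pow_eq_pow_val, Units.val_mk0, map_pow]
    rw [ht, hθ]
  obtain ⟨σ, hσ⟩ : ∃ σ : L ≃ₐ[K] L, σ θ ≠ θ := by
    by_contra h
    push Not at h
    exact hθK ((IsGalois.mem_range_algebraMap_iff_fixed θ).mpr h)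
  -- `σ θ = η θ`
  have hζL : IsPrimitiveRoot (algebraMap K L ζ) p :=
    hζ.map_of_injective (algebraMap K L).injective
  have hz' : (σ θ / θ) ^ p = 1 := by
    rw [div_pow, ← map_pow, hθ, AlgEquiv.commutes, div_self hxL]
  obtain ⟨i, -, hi⟩ := hζL.eq_pow_of_pow_eq_one hz'
  have hη1 : ζ ^ i ≠ 1 := by
    intro h
    rw [← map_pow, h, map_one] at hi
    apply hσ
    have := hi.symm
    rwa [div_eq_one_iff_eq hθ0] at this
  have hηp : (ζ ^ i) ^ p = 1 := by
    rw [← pow_mul, mul_comm, pow_mul, hζ.pow_eq_one, one_pow]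
  have hη : IsPrimitiveRoot (ζ ^ i) p :=
    isPrimitiveRoot_of_mem_nthRootsFinset hp
      ((Polynomial.mem_nthRootsFinset hp.pos (1 : K)).mpr hηp) hη1
  have hσθ : σ θ = algebraMap K L (ζ ^ i) * θ := by
    rw [map_pow, hi]
    field_simp
  -- the fixed constant
  have hηL1 : algebraMap K L (ζ ^ i) - 1 ≠ 0 := by
    rw [sub_ne_zero]
    intro h
    apply hη1
    apply (algebraMap K L).injective
    rw [h, map_one]
  set c : WithZero (Multiplicative ℤ) := w.valuation L (algebraMap K L (ζ ^ i) - 1) ^ p with hc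
  have hc0 : c ≠ 0 := pow_ne_zero _ ((Valuation.ne_zero_iff _).mpr hηL1)
  -- the estimate for every `m`
  have hest : ∀ m : ℕ, c ≤ WithZero.exp (-((m : ℤ) + 1)) := by
    intro m
    have hxm : x ∈ powSubgroup K p ⊔ principalUnits K v m := by
      have := hxv
      rw [locPow, vClosure, Subgroup.mem_iInf] at this
      exact this m
    obtain ⟨y, hy, u, hu, hyu⟩ := Subgroup.mem_sup.mp hxm
    obtain ⟨z, rfl⟩ := hy
    have hu' : v.valuation K ((u : K) - 1) ≤ WithZero.exp (-((m : ℤ) + 1)) := hu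
    have hlt : WithZero.exp (-((m : ℤ) + 1)) ≤ (1 : WithZero (Multiplicative ℤ)) := by
      rw [← WithZero.exp_zero, WithZero.exp_le_exp]
      omega
    have hzu : θ ^ p = algebraMap K L ((z : K) ^ p * (u : K)) := by
      rw [hθ, ← hyu]
      simp
    exact le_trans (ksp_key p hp v hns w hw σ (ζ ^ i) hη θ hσθ (z : K) (u : K) z.ne_zero hzu
      (le_trans hu' hlt)) hu'
  -- contradiction
  rw [← WithZero.exp_log hc0] at hest
  have h := hest (-(WithZero.log c)).toNat
  rw [WithZero.exp_le_exp] at h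
  omega

end Fermat.Agent.H65
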